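import Fermat.Agent.Carayol.Defs

/-!
# Functions of the lines `ℙ¹(𝔽_q)` with invariance under scalings and constant traces
-/

set_option autoImplicit false
set_option linter.unusedSectionVars false

noncomputable section

namespace FA.Carayol

variable {q : ℕ} [hq : Fact q.Prime]

/-- `(x : y) ↦ (x : s y)` on lines, `some t = (t : 1)`, `none = (1 : 0)`. -/
def scaleLine (s : ZMod q) (hs : s ≠ 0) : Equiv.Perm (Option (ZMod q)) :=
  Equiv.optionCongr (Equiv.mulRight₀ s⁻¹ (inv_ne_zero hs))

/-- `(x : y) ↦ (x + b y : y)`. -/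
def upLine (b : ZMod q) : Equiv.Perm (Option (ZMod q)) := Equiv.optionCongr (Equiv.addRight b)

/-- `(x : y) ↦ (y : x)`. -/
def swapLine : Equiv.Perm (Option (ZMod q)) where
  toFun l := l.elim (some 0) fun t => if t = 0 then none else some t⁻¹
  invFun l := l.elim (some 0) fun t => if t = 0 then none else some t⁻¹
  left_inv l := by
    rcases l with _ | t
    · simp
    · rcases eq_or_ne t 0 with rfl | h <;> simp [*]
  right_inv l := by
    rcases l with _ | t
    · simp
    · rcases eq_or_ne t 0 with rfl | h <;> simp [*]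

/-- `(x : y) ↦ (x : y + b x)`. -/
def lowLine (b : ZMod q) : Equiv.Perm (Option (ZMod q)) :=
  swapLine.trans ((upLine b).trans swapLine)

theorem prod_shift {G : Type*} [CommGroup G] (F : ZMod q → G) (p c : G) (hF : F 0 = c)
    (hp : ∀ t, t ≠ 0 → F t = p) : ∏ b ∈ Finset.range q, F (b : ZMod q) = c * p ^ (q - 1) := by
  classical
  rw [← Finset.mul_prod_erase _ _ (Finset.mem_range.2 hq.out.pos), Nat.cast_zero, hF]
  congr 1
  refine (Finset.prod_eq_pow_card fun b hb => hp _ ?_).trans (by
    rw [Finset.card_erase_of_mem (Finset.mem_range.2 hq.out.pos), Finset.card_range])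
  intro h0
  obtain ⟨hb0, hbq⟩ := Finset.mem_erase.1 hb
  rw [ZMod.natCast_eq_zero_iff] at h0
  exact absurd (Nat.le_of_dvd (Nat.pos_of_ne_zero hb0) h0) (not_le.2 (Finset.mem_range.1 hbq))

theorem upLine_symm_none (b : ZMod q) : (upLine b).symm none = none := by
  rw [Equiv.symm_apply_eq]; simp [upLine]

theorem upLine_symm_some (b t : ZMod q) : (upLine b).symm (some t) = some (t - b) := by
  rw [Equiv.symm_apply_eq]; simp [upLine]

theorem lowLine_symm_zero (b : ZMod q) : (lowLine b).symm (some 0) = some 0 := by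
  rw [Equiv.symm_apply_eq]; simp [lowLine, upLine, swapLine]

theorem lowLine_symm_none (b : ZMod q) :
    (lowLine b).symm none = if b = 0 then none else some (-b)⁻¹ := by
  rw [Equiv.symm_apply_eq]
  rcases eq_or_ne b 0 with rfl | hb
  · simp [lowLine, upLine, swapLine]
  · simp [lowLine, upLine, swapLine, hb]

/-- **Such a function is constant up to `q² - 1`.** -/
theorem lines_killed {G : Type*} [CommGroup G] (e : Option (ZMod q) → G)
    (hscale : ∀ (s : ZMod q) (hs : s ≠ 0), ∃ κ, ∀ l, e (scaleLine s hs l) = e l * κ)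
    (hup : ∃ c, ∀ l, ∏ b ∈ Finset.range q, e ((upLine (b : ZMod q)).symm l) = c)
    (hlow : ∃ c, ∀ l, ∏ b ∈ Finset.range q, e ((lowLine (b : ZMod q)).symm l) = c) :
    ∀ l l', e l ^ (q * q - 1) = e l' ^ (q * q - 1) := by
  classical
  set a := e none
  set b := e (some 0)
  set p := e (some 1)
  have hp : ∀ t : ZMod q, t ≠ 0 → e (some t) = p := fun t ht => by
    obtain ⟨κ, hκ⟩ := hscale t⁻¹ (inv_ne_zero ht)
    have h0 : κ = 1 := by
      have := hκ none
      simpa [scaleLine] using this
    have := hκ (some 1)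
    rw [h0, mul_one] at this
    simpa [scaleLine, p] using this
  obtain ⟨c, hc⟩ := hup
  obtain ⟨c', hc'⟩ := hlow
  have e1 : a ^ q = b * p ^ (q - 1) := by
    have h1 := hc none
    have h2 := hc (some 0)
    rw [prod_shift (fun t : ZMod q => e ((upLine t).symm (some 0))) p b
      (by simp [upLine_symm_some, b])
      (fun t ht => by simpa [upLine_symm_some] using hp (-t) (neg_ne_zero.2 ht))] at h2
    rw [h2, ← h1]
    simp [upLine_symm_none, a]
  have e2 : b ^ q = a * p ^ (q - 1) := by
    have h1 := hc' (some 0)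
    have h2 := hc' none
    rw [prod_shift (fun t : ZMod q => e ((lowLine t).symm none)) p a
      (by simp [lowLine_symm_none, a])
      (fun t ht => by
        simpa [lowLine_symm_none, ht] using hp (-t)⁻¹ (inv_ne_zero (neg_ne_zero.2 ht)))] at h2
    rw [h2, ← h1]
    simp [lowLine_symm_zero, b]
  have hfac : q * q - 1 = (q + 1) * (q - 1) := by
    have := Nat.sq_sub_sq q 1
    simpa [sq] using this
  have hsucc : q - 1 + 1 = q := Nat.sub_add_cancel hq.out.one_le
  have e3 : a ^ (q + 1) = b ^ (q + 1) := by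
    rw [pow_succ, pow_succ, e1, e2, mul_assoc, mul_assoc, mul_comm (p ^ (q - 1)) a,
      mul_comm (p ^ (q - 1)) b, ← mul_assoc, ← mul_assoc, mul_comm a b]
  have hab : a ^ (q * q - 1) = b ^ (q * q - 1) := by rw [hfac, pow_mul, pow_mul, e3]
  have hap : a ^ (q * q - 1) = p ^ (q * q - 1) := by
    have h1 : (p ^ (q - 1)) = b⁻¹ * a ^ q := by rw [e1, inv_mul_cancel_left]
    have hexp : q * (q + 1) = (q + 1) * (q - 1) + (q + 1) := by
      obtain ⟨r, hr⟩ : ∃ r, q = r + 1 := ⟨q - 1, hsucc.symm⟩
      rw [hr, Nat.add_sub_cancel]; ring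
    have h2 : (p ^ (q - 1)) ^ (q + 1) = a ^ ((q + 1) * (q - 1)) := by
      rw [h1, mul_pow, inv_pow, ← e3, ← pow_mul, hexp, pow_add a ((q + 1) * (q - 1)) (q + 1), mul_comm, mul_inv_cancel_right]
    rw [← pow_mul, mul_comm] at h2
    rw [hfac]
    exact h2.symm
  have hall : ∀ l, e l ^ (q * q - 1) = a ^ (q * q - 1) := by
    intro l
    rcases l with _ | t
    · rfl
    · rcases eq_or_ne t 0 with rfl | ht
      · exact hab.symm
      · rw [hp t ht]; exact hap.symm
  exact fun l l' => (hall l).trans (hall l').symm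

end FA.Carayol
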