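import Fermat.Agent.Carayol.Group.Glue
import Fermat.Agent.Carayol.Group.Lines

/-!
# Symmetries of the branches and the vanishing of the gluing data
-/

set_option autoImplicit false
set_option linter.unusedSectionVars false
set_option linter.style.haveILetI false

noncomputable section

namespace FA.Carayol

namespace BranchData

variable {F k : Type*} [Field F] [Field k] {n : ℕ} {P ι : Type*} (B : BranchData F k n P ι)

/-- An automorphism fixing the points and permuting the branches by `σ`. -/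
structure IsSym (φ : F ≃+* F) (σ : Equiv.Perm ι) : Prop where
  small : ∀ m l x, (B.W m l).valuation x < 1 → (B.W m (σ l)).valuation (φ x) < 1
  br_map : ∀ m l x, x ∈ B.br m l → φ x ∈ B.br m (σ l) ∧ B.val m (σ l) (φ x) = B.val m l x
  loc_map : ∀ m x, x ∈ B.loc m → φ x ∈ B.loc m

variable {B} {f : F} {a : ValuationSubring F → F} {π : P → F}

theorem val_inv_mul {m : P} {l : ι} {x : F} (hx : x ∈ B.loc m) (hne : B.val m l x ≠ 0) :
    x⁻¹ ∈ B.loc m ∧ x ≠ 0 := by
  refine ⟨B.loc_inv m l x hx (by rwa [← val_eq]), fun h => hne ?_⟩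
  rw [h, val_eq (zero_mem _)]
  exact map_zero (B.ev m l)

/-- A near unit is a unit for the valuation. -/
theorem valuation_near_one {m : P} {l : ι} {x : F} (hx : (B.W m l).valuation (x - 1) < 1) :
    (B.W m l).valuation x = 1 := by
  have := Valuation.map_add_eq_of_lt_left (B.W m l).valuation (x := (1 : F)) (y := x - 1)
    (by rw [map_one]; exact hx)
  rwa [add_sub_cancel, map_one] at this

theorem inv_near_one {m : P} {l : ι} {x : F} (hx : (B.W m l).valuation (x - 1) < 1) :
    (B.W m l).valuation (x⁻¹ - 1) < 1 := by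
  have hv := valuation_near_one hx
  have h0 : x ≠ 0 := fun h => by simp [h] at hv
  rw [show x⁻¹ - 1 = -(x - 1) * x⁻¹ by field_simp; ring, map_mul, Valuation.map_neg, map_inv₀, hv,
    inv_one, mul_one]
  exact hx

theorem mul_near_one {m : P} {l : ι} {x y : F} (hx : (B.W m l).valuation (x - 1) < 1)
    (hy : (B.W m l).valuation (y - 1) < 1) : (B.W m l).valuation (x * y - 1) < 1 := by
  rw [show x * y - 1 = (x - 1) * y + (y - 1) by ring]
  refine Valuation.map_add_lt _ ?_ hy
  rw [map_mul, valuation_near_one hy, mul_one]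
  exact hx

theorem prod_near_one {m : P} {l : ι} {β : Type*} (s : Finset β) {x : β → F}
    (hx : ∀ i ∈ s, (B.W m l).valuation (x i - 1) < 1) :
    (B.W m l).valuation (∏ i ∈ s, x i - 1) < 1 := by
  classical
  induction s using Finset.induction with
  | empty => rw [Finset.prod_empty, sub_self, map_zero]; exact zero_lt_one
  | @insert i s hi ih =>
    rw [Finset.prod_insert hi]
    exact mul_near_one (hx i (Finset.mem_insert_self _ _))
      (ih fun j hj => hx j (Finset.mem_insert_of_mem hj))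

/-- An element with `n`-th power near a constant. -/
theorem flat_val {m m' : P} (hmm : B.Linked m m') {l : ι} {x c : F} (hn : n ≠ 0) (hc : c ∈ B.C)
    (hx : (B.W m l).valuation (x ^ n - c) < 1) :
    x ∈ B.br m l ∧ x ∈ B.br m' l ∧ B.val m l x = B.val m' l x := by
  have key : ∀ p, (B.W p l).valuation (x ^ n - c) < 1 → x ∈ B.br p l := fun p hp => by
    obtain ⟨h, -⟩ := B.ev_unit p l _ hp
    have hxn : x ^ n ∈ B.br p l := by
      simpa using add_mem h (B.loc_le p l (B.C_le p hc))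
    refine B.root p l x ?_ hxn
    rw [← ValuationSubring.valuation_le_one_iff]
    have h1 : (B.W p l).valuation (x ^ n) ≤ 1 :=
      (ValuationSubring.valuation_le_one_iff _ _).2 (B.br_le p l _ hxn)
    rw [map_pow] at h1
    exact (pow_le_one_iff hn).1 h1
  have h1 := key m hx
  have h2 := key m' (hmm l ▸ hx)
  refine ⟨h1, h2, ?_⟩
  rw [val_eq h1, val_eq h2]
  exact B.flat m m' l (hmm l) x h1 h2 c hc hx

/-- **A symmetry fixing `f` shifts the comparison of two points by a constant.** -/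
theorem Roots.symm_shift (H : B.Roots f a π) {φ : F ≃+* F} {σ : Equiv.Perm ι} (hs : B.IsSym φ σ)
    (hf : φ f = f) {m m' : P} (hmm : B.Linked m m') (l₀ : ι) :
    ∃ κ : k, ∀ l, B.dval a π m (σ l) / B.dval a π m' (σ l) =
      B.dval a π m l / B.dval a π m' l * κ := by
  -- the change of the local root
  have hloc : ∀ p, φ (π p) / π p ∈ B.loc p := fun p => by
    obtain ⟨hf0, -, hπ⟩ := H.ne_zero p l₀
    refine B.loc_root p _ ?_
    have h1 := hs.loc_map p _ (H.unit_mem p)
    have h2 : B.val p (σ l₀) (φ (f / π p ^ n)) ≠ 0 := by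
      rw [(hs.br_map p l₀ _ (B.loc_le p l₀ (H.unit_mem p))).2]
      exact H.unit p l₀
    have h3 := (val_inv_mul h1 h2).1
    rw [show (φ (π p) / π p) ^ n = f / π p ^ n * (φ (f / π p ^ n))⁻¹ by
      rw [map_div₀, map_pow, hf, div_pow, inv_div]
      field_simp]
    exact mul_mem (H.unit_mem p) h3
  refine ⟨B.val m l₀ (φ (π m) / π m) / B.val m' l₀ (φ (π m') / π m'), fun l => ?_⟩
  set V := B.W m (σ l) with hV
  set w := a V / φ (a (B.W m l))
  obtain ⟨hf0, ha, hπ⟩ := H.ne_zero m l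
  obtain ⟨-, ha', -⟩ := H.ne_zero m (σ l)
  obtain ⟨-, -, hπ'⟩ := H.ne_zero m' l
  have hw : (B.W m (σ l)).valuation (w ^ n - 1) < 1 := by
    have h1 := hs.small m l _ (H.root m l)
    rw [map_sub, map_one, map_div₀, map_pow, hf] at h1
    have h2 := mul_near_one h1 (inv_near_one (H.root m (σ l)))
    rwa [show w ^ n = f / φ (a (B.W m l)) ^ n * (f / a (B.W m (σ l)) ^ n)⁻¹ by
      simp only [w, V, div_pow, inv_div]
      field_simp]
  obtain ⟨hw1, hw2, hwv⟩ := flat_val hmm H.pos (one_mem B.C) hw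
  have key : ∀ p, B.W p (σ l) = V → B.W p l = B.W m l → π p ≠ 0 → w ∈ B.br p (σ l) →
      B.dval a π p (σ l) = B.val p (σ l) w * B.dval a π p l * B.val p l₀ (φ (π p) / π p) := by
    intro p hp1 hp2 hp0 hwp
    have hb := (H.mem_br p l).1
    obtain ⟨hb', hbv⟩ := hs.br_map p l _ hb
    have hl := B.loc_le p (σ l) (hloc p)
    have e : a (B.W p (σ l)) / π p = w * φ (a (B.W p l) / π p) * (φ (π p) / π p) := by
      have hne : φ (π p) ≠ 0 := (map_ne_zero φ).2 hp0
      have hna : φ (a (B.W m l)) ≠ 0 := (map_ne_zero φ).2 ha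
      simp only [w]
      rw [hp1, hp2, map_div₀]
      field_simp
    rw [dval, e, val_mul (mul_mem hwp hb') hl, val_mul hwp hb', hbv, val_loc (hloc p) (σ l) l₀]
    rfl
  rw [key m rfl rfl hπ hw1, key m' (hmm (σ l)).symm (hmm l).symm hπ' hw2, hwv]
  have hne : B.val m' (σ l) w ≠ 0 := fun h => H.dval_ne_zero m' (σ l) (by
    rw [key m' (hmm (σ l)).symm (hmm l).symm hπ' hw2, h, zero_mul, zero_mul])
  field_simp

/-- **A family of symmetries with product a constant times a power.** -/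
theorem Roots.trace_shift (H : B.Roots f a π) {β : Type*} (s : Finset β) {φ : β → F ≃+* F}
    {σ : β → Equiv.Perm ι} (hs : ∀ i ∈ s, B.IsSym (φ i) (σ i)) {c y : F} (hc : c ∈ B.C)
    (hc0 : c ≠ 0) (hc' : c⁻¹ ∈ B.C) (hy : ∏ i ∈ s, φ i f = c * y ^ n) {m m' : P} (hmm : B.Linked m m')
    (l₀ : ι) : ∃ κ : k, ∀ l,
      ∏ i ∈ s, (B.dval a π m ((σ i).symm l) / B.dval a π m' ((σ i).symm l)) = κ := by
  refine ⟨B.val m l₀ (y / ∏ i ∈ s, φ i (π m)) / B.val m' l₀ (y / ∏ i ∈ s, φ i (π m')), fun l => ?_⟩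
  have hy0 : y ≠ 0 := fun h => by
    rw [h, zero_pow H.pos, mul_zero, Finset.prod_eq_zero_iff] at hy
    obtain ⟨i, -, hi⟩ := hy
    exact (H.ne_zero m l₀).1 ((map_eq_zero_iff _ (φ i).injective).1 hi)
  have hπ : ∀ p, y / ∏ i ∈ s, φ i (π p) ∈ B.loc p := fun p => by
    refine B.loc_root p _ ?_
    have h0 : ∀ i, φ i (π p) ≠ 0 := fun i => (map_ne_zero (φ i)).2 (H.ne_zero p l₀).2.2
    have e : (y / ∏ i ∈ s, φ i (π p)) ^ n = c⁻¹ * ∏ i ∈ s, φ i (f / π p ^ n) := by
      rw [Finset.prod_congr rfl fun i _ => show φ i (f / π p ^ n) = φ i f / φ i (π p) ^ n by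
        rw [map_div₀, map_pow], Finset.prod_div_distrib, hy, Finset.prod_pow, div_pow]
      field_simp
    rw [e]
    exact mul_mem (B.C_le p hc') (prod_mem fun i hi => (hs i hi).loc_map p _ (H.unit_mem p))
  set A := ∏ i ∈ s, φ i (a (B.W m ((σ i).symm l)))
  have hA0 : A ≠ 0 := Finset.prod_ne_zero_iff.2 fun i _ =>
    (map_ne_zero (φ i)).2 (H.ne_zero m _).2.1
  have hw : (B.W m l).valuation ((A / y) ^ n - c) < 1 := by
    have h1 : (B.W m l).valuation
        (∏ i ∈ s, (φ i (f / a (B.W m ((σ i).symm l)) ^ n))⁻¹ - 1) < 1 :=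
      prod_near_one s fun i hi => inv_near_one (by
        have := (hs i hi).small m _ _ (H.root m ((σ i).symm l))
        rwa [map_sub, map_one, Equiv.apply_symm_apply] at this)
    have e : (A / y) ^ n =
        c * ∏ i ∈ s, (φ i (f / a (B.W m ((σ i).symm l)) ^ n))⁻¹ := by
      rw [Finset.prod_inv_distrib, Finset.prod_congr rfl fun i _ => show
        φ i (f / a (B.W m ((σ i).symm l)) ^ n) = φ i f / φ i (a (B.W m ((σ i).symm l))) ^ n by
          rw [map_div₀, map_pow], Finset.prod_div_distrib, hy, Finset.prod_pow, div_pow, inv_div]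
      field_simp
      rfl
    rw [e, show c * ∏ i ∈ s, (φ i (f / a (B.W m ((σ i).symm l)) ^ n))⁻¹ - c =
      c * (∏ i ∈ s, (φ i (f / a (B.W m ((σ i).symm l)) ^ n))⁻¹ - 1) by ring, map_mul]
    refine lt_of_le_of_lt (mul_le_of_le_one_left' ?_) h1
    exact (ValuationSubring.valuation_le_one_iff _ _).2
      (B.br_le m l _ (B.loc_le m l (B.C_le m hc)))
  obtain ⟨hw1, hw2, hwv⟩ := flat_val hmm H.pos hc hw
  have key : ∀ p, B.Linked p m → A / y ∈ B.br p l →
      ∏ i ∈ s, B.dval a π p ((σ i).symm l) =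
        B.val p l (A / y) * B.val p l₀ (y / ∏ i ∈ s, φ i (π p)) := by
    intro p hp hwp
    have hb : ∀ i ∈ s, φ i (a (B.W p ((σ i).symm l)) / π p) ∈ B.br p l ∧
        B.val p l (φ i (a (B.W p ((σ i).symm l)) / π p)) = B.dval a π p ((σ i).symm l) :=
      fun i hi => by
        have := (hs i hi).br_map p _ _ (H.mem_br p ((σ i).symm l)).1
        rwa [Equiv.apply_symm_apply] at this
    rw [Finset.prod_congr rfl fun i hi => (hb i hi).2.symm, ← val_prod s fun i hi => (hb i hi).1,
      ← val_loc (hπ p) l l₀, ← val_mul hwp (B.loc_le p l (hπ p))]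
    congr 1
    rw [Finset.prod_congr rfl fun i _ => show φ i (a (B.W p ((σ i).symm l)) / π p) =
      φ i (a (B.W m ((σ i).symm l))) / φ i (π p) by rw [map_div₀, hp], Finset.prod_div_distrib,
      div_mul_div_cancel₀ hy0]
  rw [Finset.prod_div_distrib, key m (fun _ => rfl) hw1, key m' (fun l => (hmm l).symm) hw2, hwv]
  have hne : B.val m' l (A / y) ≠ 0 := fun h => by
    have := key m' (fun l => (hmm l).symm) hw2
    rw [h, zero_mul, Finset.prod_eq_zero_iff] at this
    obtain ⟨i, -, hi⟩ := this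
    exact H.dval_ne_zero m' _ hi
  rw [mul_div_mul_left _ _ hne]

variable {q : ℕ} [hq : Fact q.Prime]

/-- **The gluing data are killed by `q² - 1`.** -/
theorem Roots.killed {B : BranchData F k n P (Option (ZMod q))} {f : F}
    {a : ValuationSubring F → F} {π : P → F} (H : B.Roots f a π)
    (hscale : ∀ (s : ZMod q) (hs : s ≠ 0), ∃ φ : F ≃+* F, B.IsSym φ (scaleLine s hs) ∧ φ f = f)
    (hup : ∃ φ : ℕ → F ≃+* F, (∀ b ∈ Finset.range q, B.IsSym (φ b) (upLine (b : ZMod q))) ∧
      ∃ c y : F, c ∈ B.C ∧ c ≠ 0 ∧ c⁻¹ ∈ B.C ∧ ∏ b ∈ Finset.range q, φ b f = c * y ^ n)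
    (hlow : ∃ φ : ℕ → F ≃+* F, (∀ b ∈ Finset.range q, B.IsSym (φ b) (lowLine (b : ZMod q))) ∧
      ∃ c y : F, c ∈ B.C ∧ c ≠ 0 ∧ c⁻¹ ∈ B.C ∧ ∏ b ∈ Finset.range q, φ b f = c * y ^ n) :
    ∀ m m', B.Linked m m' → ∀ l l',
      (B.dval a π m l * B.dval a π m' l') ^ (q * q - 1) =
        (B.dval a π m' l * B.dval a π m l') ^ (q * q - 1) := by
  intro m m' hmm l l'
  set e : Option (ZMod q) → kˣ := fun x =>
    Units.mk0 (B.dval a π m x) (H.dval_ne_zero m x) / Units.mk0 (B.dval a π m' x) (H.dval_ne_zero m' x)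
  have hev : ∀ x, (e x : k) = B.dval a π m x / B.dval a π m' x := fun x => by
    simp [e, Units.val_div_eq_div_val]
  have h := lines_killed e (fun s hs => by
      obtain ⟨φ, hφ, hφf⟩ := hscale s hs
      obtain ⟨κ, hκ⟩ := H.symm_shift hφ hφf hmm none
      have hκ0 : κ ≠ 0 := fun h0 => by
        have := hκ none
        rw [h0, mul_zero] at this
        exact div_ne_zero (H.dval_ne_zero m _) (H.dval_ne_zero m' _) this
      exact ⟨Units.mk0 κ hκ0, fun x => Units.ext (by
        rw [Units.val_mul, hev, hev, Units.val_mk0]; exact hκ x)⟩)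
    (by
      obtain ⟨φ, hφ, c, y, hc, hc0, hc', hy⟩ := hup
      obtain ⟨κ, hκ⟩ := H.trace_shift (Finset.range q) hφ hc hc0 hc' hy hmm none
      exact ⟨_, fun x => Units.ext (((Units.coe_prod _ _).trans
        (Finset.prod_congr rfl fun b _ => hev _)).trans ((hκ x).trans
          ((hκ none).symm.trans ((Units.coe_prod _ _).trans
            (Finset.prod_congr rfl fun b _ => hev _)).symm)))⟩)
    (by
      obtain ⟨φ, hφ, c, y, hc, hc0, hc', hy⟩ := hlow
      obtain ⟨κ, hκ⟩ := H.trace_shift (Finset.range q) hφ hc hc0 hc' hy hmm none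
      exact ⟨_, fun x => Units.ext (((Units.coe_prod _ _).trans
        (Finset.prod_congr rfl fun b _ => hev _)).trans ((hκ x).trans
          ((hκ none).symm.trans ((Units.coe_prod _ _).trans
            (Finset.prod_congr rfl fun b _ => hev _)).symm)))⟩) l l'
  have h' := congrArg (Units.val : kˣ → k) h
  rw [Units.val_pow_eq_pow_val, Units.val_pow_eq_pow_val, hev, hev, div_pow, div_pow,
    div_eq_div_iff (pow_ne_zero _ (H.dval_ne_zero m' l)) (pow_ne_zero _ (H.dval_ne_zero m' l'))]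
    at h'
  rw [mul_pow, mul_pow, h', mul_comm]

end BranchData

end FA.Carayol
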