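import Fermat.Agent.Carayol.Defs

/-!
# Orbit combinatorics: the classes along the components

A function of `g ∈ Γ(r)` which is invariant on the left by `gsp q m`, on the right by the unipotents
at `q`, by conjugation by `diag (1, s)`, and has constant traces, is constant up to `q² - 1`.
-/

set_option autoImplicit false
set_option linter.unusedSectionVars false

noncomputable section

namespace FA.Carayol

open CongruenceSubgroup
open scoped MatrixGroups

variable {q m r : ℕ} [hq : Fact q.Prime]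

/-- Congruence modulo `q` as casts. -/
theorem coprime_lift (hqm : ¬ q ∣ m) (x : ZMod q) :
    ∃ b : ℕ, ((m * b : ℕ) : ZMod q) = x := by
  have hm : (m : ZMod q) ≠ 0 := fun h => hqm ((ZMod.natCast_eq_zero_iff m q).1 h)
  exact ⟨((m : ZMod q)⁻¹ * x).val, by
    rw [Nat.cast_mul, ZMod.natCast_val, ZMod.cast_id, mul_inv_cancel_left₀ hm]⟩

theorem upU_mem (b : ℕ) : upU ((m * b : ℕ) : ℤ) ∈ Gamma m := by
  rw [Gamma_mem]; simp [upU]

theorem lowU_mem (b : ℕ) : lowU ((m * b : ℕ) : ℤ) ∈ Gamma m := by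
  rw [Gamma_mem]; simp [lowU]

theorem coe_entry_mul (g g' : SL(2, ℤ)) (i j : Fin 2) :
    (((g * g') i j : ℤ) : ZMod q) = (g i 0 : ZMod q) * (g' 0 j : ZMod q) + (g i 1 : ZMod q) * (g' 1 j : ZMod q) := by
  simp [Matrix.SpecialLinearGroup.coe_mul, Matrix.mul_apply, Fin.sum_univ_two]

theorem det_cast (g : SL(2, ℤ)) :
    (g 0 0 : ZMod q) * (g 1 1 : ZMod q) - (g 0 1 : ZMod q) * (g 1 0 : ZMod q) = 1 := by
  have h := Matrix.SpecialLinearGroup.det_coe g
  rw [Matrix.det_fin_two] at h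
  have := congrArg (Int.cast : ℤ → ZMod q) h
  push_cast at this
  exact this

variable (hqm : ¬ q ∣ m)
include hqm

/-- Every nonzero column is the column of an element of `Γ(m)`. -/
theorem exists_column (x y : ZMod q) (hxy : x ≠ 0 ∨ y ≠ 0) :
    ∃ h ∈ Gamma m, (h 0 0 : ZMod q) = x ∧ (h 1 0 : ZMod q) = y := by
  rcases eq_or_ne y 0 with rfl | hy
  · have hx : x ≠ 0 := hxy.resolve_right (fun h => h rfl)
    obtain ⟨a, ha⟩ := coprime_lift hqm (x - 1)
    obtain ⟨c, hc⟩ := coprime_lift hqm (1 : ZMod q)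
    obtain ⟨d, hd⟩ := coprime_lift hqm (-x⁻¹)
    refine ⟨lowU ((m * d : ℕ) : ℤ) * (upU ((m * a : ℕ) : ℤ) * lowU ((m * c : ℕ) : ℤ)),
      mul_mem (lowU_mem d) (mul_mem (upU_mem a) (lowU_mem c)), ?_, ?_⟩ <;>
    · simp only [coe_entry_mul]
      simp only [upU, lowU, Matrix.of_apply, Matrix.cons_val', Matrix.cons_val_zero,
        Matrix.cons_val_one, Matrix.empty_val', Matrix.cons_val_fin_one, Int.cast_one,
        Int.cast_zero, Int.cast_natCast, ha, hc, hd]
      field_simp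
      ring
  · obtain ⟨a, ha⟩ := coprime_lift hqm ((x - 1) / y)
    obtain ⟨c, hc⟩ := coprime_lift hqm y
    refine ⟨upU ((m * a : ℕ) : ℤ) * lowU ((m * c : ℕ) : ℤ), mul_mem (upU_mem a) (lowU_mem c), ?_, ?_⟩
    all_goals
      simp only [coe_entry_mul]
      simp only [upU, lowU, Matrix.of_apply, Matrix.cons_val', Matrix.cons_val_zero,
        Matrix.cons_val_one, Matrix.empty_val', Matrix.cons_val_fin_one, Int.cast_one,
        Int.cast_zero, Int.cast_natCast, ha, hc]
    · field_simp; ring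
    · ring

/-- The torus. -/
theorem exists_torus (x : ZMod q) (hx : x ≠ 0) :
    ∃ t ∈ Gamma m, (t 0 0 : ZMod q) = x ∧ (t 1 0 : ZMod q) = 0 ∧ (t 0 1 : ZMod q) = 0 := by
  obtain ⟨h, hh, h0, h1⟩ := exists_column hqm x 0 (Or.inl hx)
  obtain ⟨e, he⟩ := coprime_lift hqm (-(h 0 1 : ZMod q) / x)
  refine ⟨h * upU ((m * e : ℕ) : ℤ), mul_mem hh (upU_mem e), ?_, ?_, ?_⟩ <;>
  · simp only [coe_entry_mul]
    simp only [upU, Matrix.of_apply, Matrix.cons_val', Matrix.cons_val_zero, Matrix.cons_val_one,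
      Matrix.empty_val', Matrix.cons_val_fin_one, Int.cast_one, Int.cast_zero, Int.cast_natCast,
      he, h0, h1]
    field_simp
    try ring

omit hqm in
theorem torus_mem_gsp {t : SL(2, ℤ)} (ht : t ∈ Gamma m) (h1 : (t 1 0 : ZMod q) = 0)
    (h2 : (t 0 1 : ZMod q) = 0) (hqm : ¬ q ∣ m) : t ∈ gsp q m := by
  rw [mem_gsp]
  refine ⟨(ZMod.intCast_zmod_eq_zero_iff_dvd _ q).1 h2, ?_⟩
  rw [Nat.cast_mul]
  have hc : IsCoprime (q : ℤ) (m : ℤ) :=
    Nat.isCoprime_iff_coprime.2 (hq.out.coprime_iff_not_dvd.2 hqm)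
  exact hc.mul_dvd ((ZMod.intCast_zmod_eq_zero_iff_dvd _ q).1 h1)
    ((ZMod.intCast_zmod_eq_zero_iff_dvd _ m).1 (Gamma_mem.1 ht).2.2.1)

omit hqm

/-- Conjugation by an element congruent to one changes nothing modulo `q`. -/
theorem entry_conj {g₀ : SL(2, ℤ)} (hg₀ : g₀ ∈ Gamma q) (k : SL(2, ℤ)) (i j : Fin 2) :
    ((g₀⁻¹ * k * g₀) i j : ZMod q) = (k i j : ZMod q) := by
  let π := Matrix.SpecialLinearGroup.map (n := Fin 2) (Int.castRingHom (ZMod q))
  have h1 : π g₀ = 1 := by rwa [Gamma_mem'] at hg₀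
  have h2 : π (g₀⁻¹ * k * g₀) = π k := by rw [map_mul, map_mul, map_inv, h1, inv_one, one_mul, mul_one]
  have := congrArg (fun x : Matrix.SpecialLinearGroup (Fin 2) (ZMod q) => x i j) h2
  exact this

/-- Multiplying by an element congruent to one changes nothing modulo `m`. -/
theorem entry_left {k : SL(2, ℤ)} (hk : k ∈ Gamma m) (g : SL(2, ℤ)) (i j : Fin 2) :
    ((k * g) i j : ZMod m) = (g i j : ZMod m) := by
  let π := Matrix.SpecialLinearGroup.map (n := Fin 2) (Int.castRingHom (ZMod m))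
  have h1 : π k = 1 := by rwa [Gamma_mem'] at hk
  have h2 : π (k * g) = π g := by rw [map_mul, h1, one_mul]
  exact congrArg (fun x : Matrix.SpecialLinearGroup (Fin 2) (ZMod m) => x i j) h2

/-- What is asked of the function. -/
structure ClassFun (q m r : ℕ) (A : Type*) [AddCommGroup A] (R : SL(2, ℤ) → A) : Prop where
  left : ∀ γ ∈ gsp q m, γ ∈ Gamma r → ∀ g ∈ Gamma r, R (γ * g) = R g
  right : ∀ g ∈ Gamma r, ∀ u ∈ Gamma m, (u 0 0 : ZMod q) = 1 → (u 1 0 : ZMod q) = 0 →
    (u 1 1 : ZMod q) = 1 → R (g * u) = R g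
  conj : ∀ s : ZMod q, s ≠ 0 → ∀ g ∈ Gamma r, ∀ g' ∈ Gamma r,
    (∀ i j, (g' i j : ZMod m) = (g i j : ZMod m)) → (g' 0 0 : ZMod q) = g 0 0 →
    (g' 0 1 : ZMod q) = s * g 0 1 → s * (g' 1 0 : ZMod q) = g 1 0 → (g' 1 1 : ZMod q) = g 1 1 →
      R g' = R g
  up : ∃ j, ∀ g ∈ Gamma r, ∑ b ∈ Finset.range q, R (upU ((m * b : ℕ) : ℤ) * g) = j
  low : ∃ j, ∀ g ∈ Gamma r, ∑ b ∈ Finset.range q, R (lowU ((m * b : ℕ) : ℤ) * g) = j
  torsion : ∀ a : A, q • a = 0 → a = 0

variable {A : Type*} [AddCommGroup A] {R : SL(2, ℤ) → A}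

theorem gamma_le_of_dvd {a b : ℕ} (h : a ∣ b) : Gamma b ≤ Gamma a := fun g hg => by
  rw [Gamma_mem] at hg ⊢
  obtain ⟨h1, h2, h3, h4⟩ := hg
  refine ⟨?_, ?_, ?_, ?_⟩
  · have := congrArg (ZMod.castHom h (ZMod a)) h1
    simpa only [map_intCast, map_one, map_zero] using this
  · have := congrArg (ZMod.castHom h (ZMod a)) h2
    simpa only [map_intCast, map_one, map_zero] using this
  · have := congrArg (ZMod.castHom h (ZMod a)) h3
    simpa only [map_intCast, map_one, map_zero] using this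
  · have := congrArg (ZMod.castHom h (ZMod a)) h4
    simpa only [map_intCast, map_one, map_zero] using this

include hqm in
/-- **The classes are constant up to `q² - 1`.** -/
theorem ClassFun.killed (H : ClassFun q m r A R) (hrm : r ∣ m) {g : SL(2, ℤ)} (hg : g ∈ Gamma r) :
    (q * q - 1) • (R g - R 1) = 0 := by
  classical
  have hr : Gamma m ≤ Gamma r := gamma_le_of_dvd hrm
  have cast_one_q : ∀ g₀ ∈ Gamma q, (g₀ 0 0 : ZMod q) = 1 ∧ (g₀ 0 1 : ZMod q) = 0 ∧
      (g₀ 1 0 : ZMod q) = 0 ∧ (g₀ 1 1 : ZMod q) = 1 := fun g₀ h => Gamma_mem.1 h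
  -- column independence
  have hcol : ∀ g₀ ∈ Gamma q, g₀ ∈ Gamma r → ∀ h ∈ Gamma m, ∀ h' ∈ Gamma m,
      (h' 0 0 : ZMod q) = h 0 0 → (h' 1 0 : ZMod q) = h 1 0 → R (h' * g₀) = R (h * g₀) := by
    intro g₀ hgq hgr h hh h' hh' e0 e1
    set u := g₀⁻¹ * (h⁻¹ * h') * g₀
    have hu : u ∈ Gamma m := by
      have := (Gamma_normal m).conj_mem _ (mul_mem (inv_mem hh) hh') g₀⁻¹
      simpa [u] using this
    have hd := det_cast (q := q) h
    have hk : ((h⁻¹ * h') 0 0 : ZMod q) = 1 ∧ ((h⁻¹ * h') 1 0 : ZMod q) = 0 := by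
      simp only [coe_entry_mul]
      rw [Matrix.SpecialLinearGroup.coe_inv, Matrix.adjugate_fin_two]
      simp only [Matrix.of_apply, Matrix.cons_val', Matrix.cons_val_zero, Matrix.cons_val_one,
        Matrix.empty_val', Matrix.cons_val_fin_one, Int.cast_neg, e0, e1]
      exact ⟨by linear_combination hd, by ring⟩
    have hk11 : ((h⁻¹ * h') 1 1 : ZMod q) = 1 := by
      have := det_cast (q := q) (h⁻¹ * h')
      rw [hk.1, hk.2] at this
      linear_combination this
    have hent : ∀ i j, (u i j : ZMod q) = ((h⁻¹ * h') i j : ZMod q) := entry_conj hgq _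
    have := H.right (h * g₀) (mul_mem (hr hh) hgr) u hu (by rw [hent]; exact hk.1)
      (by rw [hent]; exact hk.2) (by rw [hent]; exact hk11)
    rw [show h * g₀ * u = h' * g₀ by simp [u, mul_assoc]] at this
    exact this
  -- decomposition
  have hdec : ∀ g ∈ Gamma r, ∃ h ∈ Gamma m, ∃ g₀ ∈ Gamma q, g₀ ∈ Gamma r ∧ g = h * g₀ := by
    intro g hg
    obtain ⟨h, hh, h0, h1⟩ := exists_column hqm (g 0 0 : ZMod q) (g 1 0 : ZMod q) (by
      by_contra hc
      push Not at hc
      have := det_cast (q := q) g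
      rw [hc.1, hc.2] at this
      simp at this)
    have hd := det_cast (q := q) h
    obtain ⟨e, he⟩ := coprime_lift hqm
      ((h 1 1 : ZMod q) * g 0 1 - (h 0 1 : ZMod q) * g 1 1)
    set k := upU ((m * e : ℕ) : ℤ)
    refine ⟨h * k, mul_mem hh (upU_mem e), (h * k)⁻¹ * g, ?_,
      mul_mem (inv_mem (hr (mul_mem hh (upU_mem e)))) hg, by rw [mul_inv_cancel_left]⟩
    have hdg := det_cast (q := q) g
    rw [Gamma_mem, mul_inv_rev, mul_assoc]
    simp only [coe_entry_mul]
    rw [Matrix.SpecialLinearGroup.coe_inv, Matrix.adjugate_fin_two,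
      Matrix.SpecialLinearGroup.coe_inv, Matrix.adjugate_fin_two]
    simp only [k, upU, Matrix.of_apply, Matrix.cons_val', Matrix.cons_val_zero, Matrix.cons_val_one,
      Matrix.empty_val', Matrix.cons_val_fin_one, Int.cast_one, Int.cast_zero, Int.cast_natCast,
      Int.cast_neg, neg_zero]
    rw [show (e : ℕ) = e from rfl] at he
    refine ⟨?_, ?_, ?_, ?_⟩
    · rw [he, ← h0, ← h1] at *; linear_combination hd
    · rw [he]
      rw [← h0, ← h1] at hdg
      linear_combination (-((h 1 1 : ZMod q) * g 0 1 - (h 0 1 : ZMod q) * g 1 1)) * hdg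
    · rw [← h0, ← h1]; ring
    · rw [← h0, ← h1] at hdg
      linear_combination hdg
  -- the three values
  obtain ⟨j, hj⟩ := H.up
  obtain ⟨j', hj'⟩ := H.low
  obtain ⟨S', hS', s0, s1⟩ := exists_column hqm (0 : ZMod q) 1 (Or.inr one_ne_zero)
  obtain ⟨L, hL, l0, l1⟩ := exists_column hqm (1 : ZMod q) 1 (Or.inl one_ne_zero)
  have hval : ∀ g₀ ∈ Gamma q, g₀ ∈ Gamma r → ∀ h ∈ Gamma m,
      R (h * g₀) = if (h 1 0 : ZMod q) = 0 then R g₀
        else if (h 0 0 : ZMod q) = 0 then R (S' * g₀) else R (L * g₀) := by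
    intro g₀ hgq hgr h hh
    split_ifs with hy hx
    · have hx : (h 0 0 : ZMod q) ≠ 0 := fun hx => by
        have := det_cast (q := q) h
        rw [hx, hy] at this
        simp at this
      obtain ⟨t, ht, t0, t1, t2⟩ := exists_torus hqm _ hx
      rw [hcol g₀ hgq hgr t ht h hh t0.symm (by rw [t1, hy]),
        H.left t (torus_mem_gsp ht t1 t2 hqm) (hr ht) g₀ hgr]
    · obtain ⟨t, ht, t0, t1, t2⟩ := exists_torus hqm (h 1 0 : ZMod q)⁻¹ (inv_ne_zero hy)
      have hd := det_cast (q := q) t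
      rw [t0, t1, t2] at hd
      simp only [mul_zero, sub_zero] at hd
      have t3 : (t 1 1 : ZMod q) = h 1 0 := by
        field_simp at hd
        linear_combination hd
      rw [hcol g₀ hgq hgr (t * S') (mul_mem ht hS') h hh
        (by rw [coe_entry_mul, t2, s0, hx]; ring) (by rw [coe_entry_mul, t1, t3, s1]; ring),
        mul_assoc, H.left t (torus_mem_gsp ht t1 t2 hqm) (hr ht) _ (mul_mem (hr hS') hgr)]
    · obtain ⟨t, ht, t0, t1, t2⟩ := exists_torus hqm _ hx
      have hd := det_cast (q := q) t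
      rw [t0, t1, t2] at hd
      simp only [mul_zero, sub_zero] at hd
      set c := (h 0 0 : ZMod q) * h 1 0
      have hc : c ≠ 0 := mul_ne_zero hx hy
      obtain ⟨e, he⟩ := coprime_lift hqm c
      obtain ⟨e1, he1⟩ := coprime_lift hqm (1 : ZMod q)
      set E := lowU ((m * e : ℕ) : ℤ)
      set E1 := lowU ((m * e1 : ℕ) : ℤ)
      have u0 : (E 0 0 : ZMod q) = 1 := by simp [E, lowU]
      have u1 : (E 1 0 : ZMod q) = c := by simp [E, lowU, ← he]
      have v0 : (E1 0 0 : ZMod q) = 1 := by simp [E1, lowU]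
      have v1 : (E1 1 0 : ZMod q) = 1 := by simp [E1, lowU, ← he1]
      rw [hcol g₀ hgq hgr (t * E) (mul_mem ht (lowU_mem e)) h hh
        (by rw [coe_entry_mul, t0, t2, u0]; ring)
        (by rw [coe_entry_mul, t1, u1]; linear_combination (-(h 1 0 : ZMod q)) * hd),
        mul_assoc, H.left t (torus_mem_gsp ht t1 t2 hqm) (hr ht) _
          (mul_mem (hr (lowU_mem e)) hgr),
        hcol g₀ hgq hgr E1 (lowU_mem e1) L hL (by rw [l0, v0]) (by rw [l1, v1])]
      have hm1 : ∀ i j, ((E * g₀) i j : ZMod m) = ((E1 * g₀) i j : ZMod m) := fun i j => by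
        rw [entry_left (lowU_mem e) g₀, entry_left (lowU_mem e1) g₀]
      obtain ⟨a0, a1, a2, a3⟩ := cast_one_q g₀ hgq
      refine H.conj c⁻¹ (inv_ne_zero hc) (E1 * g₀) (mul_mem (hr (lowU_mem e1)) hgr)
        (E * g₀) (mul_mem (hr (lowU_mem e)) hgr) hm1 ?_ ?_ ?_ ?_
      · rw [coe_entry_mul, coe_entry_mul, a0, a2, u0, v0]; ring
      · rw [coe_entry_mul, coe_entry_mul, a1, a3]; simp [E, E1, lowU]
      · rw [coe_entry_mul, coe_entry_mul, a0, a2, u1, v1]
        simp only [mul_one, mul_zero, add_zero]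
        exact inv_mul_cancel₀ hc
      · rw [coe_entry_mul, coe_entry_mul, a1, a3]; simp [E, E1, lowU]
  -- traces
  have hsum : ∀ (F : ℕ → A) (a : A) (b0 : ℕ) (c : A), b0 < q → F b0 = c →
      (∀ b < q, b ≠ b0 → F b = a) → ∑ b ∈ Finset.range q, F b = c + (q - 1) • a := by
    intro F a b0 c hb0 hc hF
    rw [← Finset.add_sum_erase _ _ (Finset.mem_range.2 hb0), hc, Finset.sum_congr rfl
      fun b hb => hF b (Finset.mem_range.1 (Finset.mem_of_mem_erase hb)) (Finset.ne_of_mem_erase hb),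
      Finset.sum_const, Finset.card_erase_of_mem (Finset.mem_range.2 hb0), Finset.card_range]
  have hm0 : (m : ZMod q) ≠ 0 := fun h => hqm ((ZMod.natCast_eq_zero_iff m q).1 h)
  have inj : ∀ b b' : ℕ, b < q → b' < q → ((m * b : ℕ) : ZMod q) = ((m * b' : ℕ) : ZMod q) →
      b = b' := fun b b' h1 h2 he => by
    push_cast at he
    have := congrArg ZMod.val (mul_left_cancel₀ hm0 he)
    rwa [ZMod.val_natCast_of_lt h1, ZMod.val_natCast_of_lt h2] at this
  obtain ⟨bm, hbm, hbmq⟩ : ∃ b < q, ((m * b : ℕ) : ZMod q) = -1 :=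
    ⟨((m : ZMod q)⁻¹ * -1).val, ZMod.val_lt _, by
      rw [Nat.cast_mul, ZMod.natCast_val, ZMod.cast_id, mul_inv_cancel_left₀ hm0]⟩
  rw [Nat.cast_mul] at hbmq
  have main : ∀ g₀ ∈ Gamma q, g₀ ∈ Gamma r →
      q • R g₀ = j ∧ q • R (S' * g₀) = j' ∧ R (S' * g₀) + (q - 1) • R (L * g₀) = j ∧
        R g₀ + (q - 1) • R (L * g₀) = j' := by
    intro g₀ hgq hgr
    have hmul : ∀ (k h : SL(2, ℤ)), k ∈ Gamma m → h ∈ Gamma m →
        R (k * (h * g₀)) = if ((k * h) 1 0 : ZMod q) = 0 then R g₀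
          else if ((k * h) 0 0 : ZMod q) = 0 then R (S' * g₀) else R (L * g₀) := fun k h hk hh => by
      rw [← mul_assoc]; exact hval g₀ hgq hgr _ (mul_mem hk hh)
    refine ⟨?_, ?_, ?_, ?_⟩
    · rw [← hj g₀ hgr, Finset.sum_congr rfl fun b _ => ?_, Finset.sum_const, Finset.card_range]
      rw [hval g₀ hgq hgr _ (upU_mem b), if_pos (by simp [upU])]
    · rw [← hj' _ (mul_mem (hr hS') hgr), Finset.sum_congr rfl fun b _ => ?_, Finset.sum_const,
        Finset.card_range]
      rw [hmul _ _ (lowU_mem b) hS', if_neg, if_pos]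
      · rw [coe_entry_mul, s0, s1]; simp [lowU]
      · rw [coe_entry_mul, s0, s1]; simp [lowU]
    · rw [← hj _ (mul_mem (hr hL) hgr), hsum _ _ bm (R (S' * g₀)) hbm]
      · rw [hmul _ _ (upU_mem bm) hL, if_neg, if_pos]
        · rw [coe_entry_mul, l0, l1]; simp [upU]; linear_combination hbmq
        · rw [coe_entry_mul, l0, l1]; simp [upU]
      · intro b hb hne
        rw [hmul _ _ (upU_mem b) hL, if_neg, if_neg]
        · rw [coe_entry_mul, l0, l1]
          simp only [upU, Matrix.of_apply, Matrix.cons_val', Matrix.cons_val_zero,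
            Matrix.cons_val_one, Matrix.empty_val', Matrix.cons_val_fin_one, Int.cast_one,
            Int.cast_natCast, mul_one]
          intro he
          exact hne (inj b bm hb hbm (by push_cast at he ⊢; linear_combination he - hbmq))
        · rw [coe_entry_mul, l0, l1]; simp [upU]
    · rw [← hj' _ (mul_mem (hr hL) hgr), hsum _ _ bm (R g₀) hbm]
      · rw [hmul _ _ (lowU_mem bm) hL, if_pos]
        rw [coe_entry_mul, l0, l1]; simp [lowU]; linear_combination hbmq
      · intro b hb hne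
        rw [hmul _ _ (lowU_mem b) hL, if_neg, if_neg]
        · rw [coe_entry_mul, l0, l1]; simp [lowU]
        · rw [coe_entry_mul, l0, l1]
          simp only [lowU, Matrix.of_apply, Matrix.cons_val', Matrix.cons_val_zero,
            Matrix.cons_val_one, Matrix.empty_val', Matrix.cons_val_fin_one, Int.cast_one,
            Int.cast_natCast, mul_one]
          intro he
          exact hne (inj b bm hb hbm (by push_cast at he ⊢; linear_combination he - hbmq))
  obtain ⟨h, hh, g₀, hgq, hgr, rfl⟩ := hdec g hg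
  obtain ⟨e1, e2, e3, e4⟩ := main g₀ hgq hgr
  obtain ⟨f1, -, -, -⟩ := main 1 (one_mem _) (one_mem _)
  have ha : R g₀ = R 1 := sub_eq_zero.1 (H.torsion _ (by rw [smul_sub, e1, f1, sub_self]))
  have hsplit : ∀ x : A, q • x = (q - 1) • x + x := fun x => by
    conv_rhs => rhs; rw [← one_smul ℕ x]
    rw [← add_smul, Nat.sub_add_cancel hq.out.one_le]
  set a := R g₀
  set b := R (S' * g₀)
  set p := R (L * g₀)
  have x1 : b - a = (q - 1) • (a - p) := by
    rw [smul_sub]
    have : b + (q - 1) • p = (q - 1) • a + a := by rw [e3, ← e1, hsplit]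
    linear_combination (norm := abel) this
  have x2 : (q + 1) • (b - a) = 0 := by
    rw [add_smul, one_smul, smul_sub, e2, e1]
    linear_combination (norm := abel) e3 - e4
  have hfac : q * q - 1 = (q + 1) * (q - 1) := by
    have := Nat.sq_sub_sq q 1
    simpa [sq] using this
  rw [hval g₀ hgq hgr h hh, ← ha]
  split_ifs
  · rw [sub_self, smul_zero]
  · rw [hfac, mul_comm, mul_smul, x2, smul_zero]
  · rw [hfac, mul_smul, show (q - 1) • (p - a) = -(b - a) by rw [x1, ← smul_neg, neg_sub],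
      smul_neg, x2, neg_zero]

end FA.Carayol
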