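import Fermat.Agent.Carayol.Defs

/-!
# Gluing the roots at the supersingular points

At a point `m` the branches are indexed by the lines `ℙ¹(𝔽_q)`; the value of a root of `f` on a
branch, divided by a local root `π m`, is an `n`-th root `dval` of the value of `f / π ^ n`.
-/

set_option autoImplicit false
set_option linter.unusedSectionVars false

noncomputable section

namespace FA.Carayol

/-- Points with branches indexed by `ι`. -/
structure BranchData (F k : Type*) [Field F] [Field k] (n : ℕ) (P ι : Type*) where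
  /-- the component of a branch -/
  W : P → ι → ValuationSubring F
  /-- the functions regular on a branch -/
  br : P → ι → Subring F
  /-- the value at the point -/
  ev : ∀ m l, br m l →+* k
  /-- the functions regular at the point -/
  loc : P → Subring F
  loc_le : ∀ m l, loc m ≤ br m l
  ev_loc : ∀ m l l' x (hx : x ∈ loc m), ev m l ⟨x, loc_le m l hx⟩ = ev m l' ⟨x, loc_le m l' hx⟩
  ev_unit : ∀ m l x, (W m l).valuation x < 1 → ∃ hx : x ∈ br m l, ev m l ⟨x, hx⟩ = 0
  br_le : ∀ m l x, x ∈ br m l → x ∈ W m l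
  root : ∀ m l x, x ∈ W m l → x ^ n ∈ br m l → x ∈ br m l
  loc_root : ∀ m x, x ^ n ∈ loc m → x ∈ loc m
  loc_inv : ∀ m l x (hx : x ∈ loc m), ev m l ⟨x, loc_le m l hx⟩ ≠ 0 → x⁻¹ ∈ loc m
  comp : ∀ m m' l l', W m l = W m' l → W m l' = W m' l'
  line : ∀ m m' l l', W m l = W m' l' → l = l'
  /-- the constants -/
  C : Subring F
  C_le : ∀ m, C ≤ loc m
  flat : ∀ m m' l, W m l = W m' l → ∀ x (hx : x ∈ br m l) (hx' : x ∈ br m' l), ∀ c ∈ C,
    (W m l).valuation (x ^ n - c) < 1 → ev m l ⟨x, hx⟩ = ev m' l ⟨x, hx'⟩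
  lift : ∀ z : k, z ^ n = 1 → ∃ ζ ∈ C, ζ ^ n = 1 ∧
    ∀ m l (h : ζ ∈ br m l), ev m l ⟨ζ, h⟩ = z

namespace BranchData

variable {F k : Type*} [Field F] [Field k] {n : ℕ} {P ι : Type*} (B : BranchData F k n P ι)

/-- The value on a branch, zero outside its domain. -/
def val (m : P) (l : ι) (x : F) : k :=
  letI := Classical.dec (x ∈ B.br m l)
  if h : x ∈ B.br m l then B.ev m l ⟨x, h⟩ else 0

variable {B}

theorem val_eq {m : P} {l : ι} {x : F} (h : x ∈ B.br m l) : B.val m l x = B.ev m l ⟨x, h⟩ := by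
  rw [val, dif_pos h]

theorem val_mul {m : P} {l : ι} {x y : F} (hx : x ∈ B.br m l) (hy : y ∈ B.br m l) :
    B.val m l (x * y) = B.val m l x * B.val m l y := by
  rw [val_eq hx, val_eq hy, val_eq (mul_mem hx hy), ← map_mul]; rfl

theorem val_one (m : P) (l : ι) : B.val m l 1 = 1 := by
  rw [val_eq (one_mem _)]; exact map_one (B.ev m l)

theorem val_pow {m : P} {l : ι} {x : F} (hx : x ∈ B.br m l) (j : ℕ) :
    B.val m l (x ^ j) = B.val m l x ^ j := by
  rw [val_eq hx, val_eq (pow_mem hx j), ← map_pow]; rfl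

theorem val_prod {m : P} {l : ι} {β : Type*} (s : Finset β) {x : β → F}
    (hx : ∀ i ∈ s, x i ∈ B.br m l) : B.val m l (∏ i ∈ s, x i) = ∏ i ∈ s, B.val m l (x i) := by
  classical
  induction s using Finset.induction with
  | empty => simp [val_one]
  | @insert a s ha ih =>
    rw [Finset.prod_insert ha, Finset.prod_insert ha,
      val_mul (hx a (Finset.mem_insert_self _ _))
        (prod_mem fun i hi => hx i (Finset.mem_insert_of_mem hi)),
      ih fun i hi => hx i (Finset.mem_insert_of_mem hi)]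

theorem val_loc {m : P} {x : F} (hx : x ∈ B.loc m) (l l' : ι) : B.val m l x = B.val m l' x := by
  rw [val_eq (B.loc_le m l hx), val_eq (B.loc_le m l' hx), B.ev_loc m l l' x hx]

theorem near_one {m : P} {l : ι} {x : F} (hx : (B.W m l).valuation (x - 1) < 1) :
    x ∈ B.br m l ∧ B.val m l x = 1 := by
  obtain ⟨h, he⟩ := B.ev_unit m l _ hx
  have hmem : x ∈ B.br m l := by simpa using add_mem h (one_mem _)
  refine ⟨hmem, ?_⟩
  rw [val_eq hmem, show (⟨x, hmem⟩ : B.br m l) = ⟨x - 1, h⟩ + 1 from Subtype.ext (by simp),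
    map_add, map_one, he, zero_add]

variable (B)

/-- `a` gives roots of `f` on all branches, `π` at all points. -/
structure Roots (f : F) (a : ValuationSubring F → F) (π : P → F) : Prop where
  pos : n ≠ 0
  root : ∀ m l, (B.W m l).valuation (f / a (B.W m l) ^ n - 1) < 1
  unit_mem : ∀ m, f / π m ^ n ∈ B.loc m
  unit : ∀ m l, B.val m l (f / π m ^ n) ≠ 0

/-- The value of a root on a branch. -/
def dval (a : ValuationSubring F → F) (π : P → F) (m : P) (l : ι) : k :=
  B.val m l (a (B.W m l) / π m)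

variable {B} {f : F} {a : ValuationSubring F → F} {π : P → F}

theorem Roots.ne_zero (H : B.Roots f a π) (m : P) (l : ι) :
    f ≠ 0 ∧ a (B.W m l) ≠ 0 ∧ π m ≠ 0 := by
  have hf : f ≠ 0 := fun h => H.unit m l (by
    rw [h, zero_div, val_eq (zero_mem _)]; exact map_zero (B.ev m l))
  refine ⟨hf, fun h => ?_, fun h => H.unit m l (by
    rw [h, zero_pow H.pos, div_zero, val_eq (zero_mem _)]; exact map_zero (B.ev m l))⟩
  have h1 := H.root m l
  rw [h, zero_pow H.pos, div_zero, zero_sub, Valuation.map_neg, map_one] at h1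
  exact lt_irrefl _ h1

theorem Roots.mem_br (H : B.Roots f a π) (m : P) (l : ι) :
    a (B.W m l) / π m ∈ B.br m l ∧ B.dval a π m l ^ n = B.val m l (f / π m ^ n) := by
  obtain ⟨hf, ha, hπ⟩ := H.ne_zero m l
  set W := B.W m l
  set u := f / a W ^ n
  have hv : W.valuation u = 1 := by
    have := Valuation.map_add_eq_of_lt_left W.valuation (x := (1 : F)) (y := u - 1)
      (by rw [map_one]; exact H.root m l)
    rwa [add_sub_cancel, map_one] at this
  have hu : u⁻¹ ∈ B.br m l ∧ B.val m l u⁻¹ = 1 := by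
    refine near_one ?_
    have : u⁻¹ - 1 = -(u - 1) * u⁻¹ := by
      have : u ≠ 0 := div_ne_zero hf (pow_ne_zero n ha)
      field_simp; ring
    rw [this, map_mul, Valuation.map_neg, map_inv₀, hv, inv_one, mul_one]
    exact H.root m l
  have hw : f / π m ^ n ∈ B.br m l := B.loc_le m l (H.unit_mem m)
  have hpow : (a W / π m) ^ n = u⁻¹ * (f / π m ^ n) := by
    simp only [u]; rw [div_pow]; field_simp
  have hW : a W / π m ∈ W := by
    rw [← ValuationSubring.valuation_le_one_iff]
    have h1 : W.valuation ((a W / π m) ^ n) ≤ 1 := by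
      rw [ValuationSubring.valuation_le_one_iff, hpow]
      exact mul_mem (B.br_le m l _ hu.1) (B.br_le m l _ hw)
    rw [map_pow] at h1
    exact (pow_le_one_iff H.pos).1 h1
  have hmem := B.root m l _ hW (by rw [hpow]; exact mul_mem hu.1 hw)
  refine ⟨hmem, ?_⟩
  rw [dval, ← val_pow hmem, hpow, val_mul hu.1 hw, hu.2, one_mul]

theorem Roots.dval_ne_zero (H : B.Roots f a π) (m : P) (l : ι) :
    B.dval a π m l ≠ 0 := fun h => H.unit m l (by rw [← (H.mem_br m l).2, h, zero_pow H.pos])

/-- Two points on the same components. -/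
def Linked (B : BranchData F k n P ι) (m m' : P) : Prop := ∀ l, B.W m l = B.W m' l

/-- **Compatible roots of a power of `f`.** -/
theorem Roots.exists_compatible (H : B.Roots f a π) (l₀ : ι) {e : ℕ}
    (hkill : ∀ m m', B.Linked m m' → ∀ l l',
      (B.dval a π m l * B.dval a π m' l') ^ e = (B.dval a π m' l * B.dval a π m l') ^ e) :
    ∃ a' : ValuationSubring F → F, B.Roots (f ^ e) a' (fun m => π m ^ e) ∧
      ∀ m l, B.dval a' (fun m => π m ^ e) m l = B.dval a' (fun m => π m ^ e) m l₀ := by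
  classical
  have hζ : ∀ V : ValuationSubring F, ∃ ζ ∈ B.C, ζ ^ n = 1 ∧
      ∀ m l, B.W m l = V → ∀ h : ζ ∈ B.br m l,
        B.ev m l ⟨ζ, h⟩ * B.dval a π m l ^ e = B.dval a π m l₀ ^ e := by
    intro V
    by_cases hV : ∃ ml : P × ι, B.W ml.1 ml.2 = V
    · obtain ⟨⟨m₀, l⟩, hm₀⟩ := hV
      obtain ⟨ζ, hζC, hζn, hζv⟩ := B.lift ((B.dval a π m₀ l₀ / B.dval a π m₀ l) ^ e) (by
        rw [← pow_mul, mul_comm, pow_mul, div_pow, (H.mem_br m₀ l₀).2, (H.mem_br m₀ l).2,
          val_loc (H.unit_mem m₀) l₀ l, div_self (H.unit m₀ l), one_pow])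
      refine ⟨ζ, hζC, hζn, fun m l' hm h => ?_⟩
      rw [hζv, div_pow, div_mul_eq_mul_div, div_eq_iff (pow_ne_zero _ (H.dval_ne_zero m₀ l))]
      obtain rfl : l' = l := B.line m m₀ l' l (hm.trans hm₀.symm)
      have hlink : B.Linked m m₀ := fun l'' => B.comp m m₀ l' l'' (hm.trans hm₀.symm)
      have := hkill m m₀ hlink l' l₀
      rw [mul_pow, mul_pow] at this
      linear_combination this
    · exact ⟨1, one_mem _, one_pow n, fun m l hm => absurd ⟨(m, l), hm⟩ hV⟩
  choose ζ hζC hζn hζv using hζ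
  refine ⟨fun V => ζ V * a V ^ e, ⟨H.pos, fun m l => ?_, fun m => ?_, fun m l => ?_⟩, fun m l => ?_⟩
  · have h1 : f ^ e / (ζ (B.W m l) * a (B.W m l) ^ e) ^ n = (f / a (B.W m l) ^ n) ^ e := by
      rw [mul_pow, hζn, one_mul, div_pow, ← pow_mul, ← pow_mul, mul_comm]
    rw [h1]
    have hW : ∀ j : ℕ, (B.W m l).valuation ((f / a (B.W m l) ^ n) ^ j - 1) < 1 := fun j => by
      induction j with
      | zero => rw [pow_zero, sub_self, map_zero]; exact zero_lt_one
      | succ j ih =>
        set u := f / a (B.W m l) ^ n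
        have : u ^ (j + 1) - 1 = (u ^ j - 1) * (u - 1) + (u ^ j - 1) + (u - 1) := by ring
        rw [this]
        refine Valuation.map_add_lt _ (Valuation.map_add_lt _ ?_ ih) (H.root m l)
        rw [map_mul]
        exact lt_of_le_of_lt (mul_le_of_le_one_left' ih.le) (H.root m l)
    exact hW e
  · rw [show f ^ e / (π m ^ e) ^ n = (f / π m ^ n) ^ e by
      rw [div_pow, ← pow_mul, ← pow_mul, mul_comm]]
    exact pow_mem (H.unit_mem m) e
  · rw [show f ^ e / (π m ^ e) ^ n = (f / π m ^ n) ^ e by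
      rw [div_pow, ← pow_mul, ← pow_mul, mul_comm], val_pow (B.loc_le m l (H.unit_mem m))]
    exact pow_ne_zero e (H.unit m l)
  · have key : ∀ l, B.dval (fun V => ζ V * a V ^ e) (fun m => π m ^ e) m l =
        B.dval a π m l₀ ^ e := fun l => by
      have hb := (H.mem_br m l).1
      have hc : ζ (B.W m l) ∈ B.br m l := B.loc_le m l (B.C_le m (hζC _))
      rw [dval, show ζ (B.W m l) * a (B.W m l) ^ e / π m ^ e =
        ζ (B.W m l) * (a (B.W m l) / π m) ^ e by rw [div_pow]; ring,
        val_mul hc (pow_mem hb e), val_pow hb, val_eq hc]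
      exact hζv (B.W m l) m l rfl hc
    rw [key, key]

end BranchData

end FA.Carayol
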